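/-
S56 brick LF, row B2 (LF5), sub-brick [Peel] (generic DVR half).  helper63, dealt by helper86.

`O` a discrete valuation ring with finite residue field, uniformiser `ϖ`, `p = ϖ^e * υ` with
`e ≥ 1` (mixed characteristic).  Every unit `u` is, modulo `p`-th powers of units, either in the
principal units `U_e`, or of EXACT level `i` with `1 ≤ i < e` and `p ∤ i`.

Proof: the residue field is perfect, so `u` is a `p`-th power modulo `U_1`; for `1 ≤ l < e` with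
`p ∣ l`, `l = p l'`, an element `1 + ϖ^l a` of `U_l` is `(1 + ϖ^l' b)^p` modulo `U_(l+1)`, where
`b^p ≡ a`, because `p ϖ^l'` has valuation `e + l' ≥ l + 1`.  No completeness is used.
-/
import Fermat.Agent.CFT.Local.WildIndex

set_option autoImplicit false

namespace Fermat.Agent.S56.Flat.LF5.Peel

open IsLocalRing Fermat.Agent.CFT.Local

variable {O : Type*} [CommRing O] [IsDomain O] [IsDiscreteValuationRing O]

/-- `p` lies in the maximal ideal. -/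
lemma natCast_mem_maximalIdeal {ϖ : O} (hϖ : Irreducible ϖ) {p e : ℕ} {υ : Oˣ}
    (hpe : (p : O) = ϖ ^ e * (υ : O)) (he : 1 ≤ e) : (p : O) ∈ maximalIdeal O := by
  rw [hpe]
  exact Ideal.mul_mem_right _ _ (uniformizer_pow_mem_maximalIdeal hϖ he)

/-- The residue field is perfect: every element is a `p`-th power. -/
lemma exists_pow_eq_residue [Finite (ResidueField O)] {ϖ : O} (hϖ : Irreducible ϖ) {p : ℕ}
    (hp : p.Prime) {e : ℕ} {υ : Oˣ} (hpe : (p : O) = ϖ ^ e * (υ : O)) (he : 1 ≤ e)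
    (x : ResidueField O) : ∃ y : ResidueField O, y ^ p = x := by
  have h0 : ((p : ℕ) : ResidueField O) = 0 := by
    have h := natCast_mem_maximalIdeal hϖ hpe he
    rw [← residue_eq_zero_iff, map_natCast] at h
    exact h
  have : CharP (ResidueField O) p := (CharP.charP_iff_prime_eq_zero hp).mpr h0
  have : ExpChar (ResidueField O) p := ExpChar.prime hp
  obtain ⟨y, hy⟩ := Finite.surjective_of_injective (frobenius_inj (ResidueField O) p) x
  exact ⟨y, hy⟩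

/-- An element of `O` with the same residue as a `p`-th power... : lift of a `p`-th root of the
residue.  For every `a : O` there is `b : O` with `a - b ^ p ∈ 𝔪`. -/
lemma exists_sub_pow_mem [Finite (ResidueField O)] {ϖ : O} (hϖ : Irreducible ϖ) {p : ℕ}
    (hp : p.Prime) {e : ℕ} {υ : Oˣ} (hpe : (p : O) = ϖ ^ e * (υ : O)) (he : 1 ≤ e) (a : O) :
    ∃ b : O, a - b ^ p ∈ maximalIdeal O := by
  obtain ⟨y, hy⟩ := exists_pow_eq_residue hϖ hp hpe he (residue O a)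
  obtain ⟨b, hb⟩ := residue_surjective (R := O) y
  refine ⟨b, ?_⟩
  rw [← residue_eq_zero_iff, map_sub, map_pow, hb, hy, sub_self]

/-- Membership in `U_n` of a quotient `v * (y ^ p)⁻¹` from a congruence `v ≡ y ^ p mod ϖ^n`. -/
lemma mul_inv_mem_principalUnits {ϖ : O} (hϖ : Irreducible ϖ) (n : ℕ) (v y : Oˣ) (t : O)
    (h : (v : O) - (y : O) = ϖ ^ n * t) : v * y⁻¹ ∈ principalUnits O n := by
  rw [mem_principalUnits, mem_maximalIdeal_pow_iff hϖ]
  refine ⟨t * ((y⁻¹ : Oˣ) : O), ?_⟩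
  have h1 : (y : O) * ((y⁻¹ : Oˣ) : O) = 1 := y.mul_inv
  rw [Units.val_mul]
  linear_combination ((y⁻¹ : Oˣ) : O) * h + h1

/-- `u` is a `p`-th power modulo `U_1`. -/
lemma exists_mem_one [Finite (ResidueField O)] {ϖ : O} (hϖ : Irreducible ϖ) {p : ℕ}
    (hp : p.Prime) {e : ℕ} {υ : Oˣ} (hpe : (p : O) = ϖ ^ e * (υ : O)) (he : 1 ≤ e) (u : Oˣ) :
    ∃ w : Oˣ, u * (w ^ p)⁻¹ ∈ principalUnits O 1 := by
  obtain ⟨b, hb⟩ := exists_sub_pow_mem hϖ hp hpe he (u : O)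
  have hbu : IsUnit b := by
    by_contra hb'
    have hbm : b ∈ maximalIdeal O := (mem_maximalIdeal _).mpr hb'
    have hum : (u : O) ∈ maximalIdeal O := by
      have := Ideal.add_mem _ hb (Ideal.pow_mem_of_mem _ hbm p hp.pos)
      rwa [sub_add_cancel] at this
    exact (mem_maximalIdeal _).mp hum u.isUnit
  obtain ⟨t, ht⟩ := (mem_maximalIdeal_pow_iff hϖ 1 _).mp (by rwa [pow_one] : (u : O) - b ^ p ∈ maximalIdeal O ^ 1)
  refine ⟨hbu.unit, mul_inv_mem_principalUnits hϖ 1 u (hbu.unit ^ p) t ?_⟩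
  rw [Units.val_pow_eq_pow_val, IsUnit.unit_spec]
  exact ht

/-- The peeling step at a level `l = p * l'` divisible by `p`, `1 ≤ l < e`. -/
lemma exists_mem_succ_of_dvd [Finite (ResidueField O)] {ϖ : O} (hϖ : Irreducible ϖ) {p : ℕ}
    (hp : p.Prime) {e : ℕ} {υ : Oˣ} (hpe : (p : O) = ϖ ^ e * (υ : O)) {l' : ℕ} (hl' : 1 ≤ l')
    (hle : p * l' < e) (v : Oˣ) (hv : v ∈ principalUnits O (p * l')) :
    ∃ y : Oˣ, v * (y ^ p)⁻¹ ∈ principalUnits O (p * l' + 1) := by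
  have he : 1 ≤ e := by omega
  obtain ⟨a, ha⟩ := (mem_maximalIdeal_pow_iff hϖ (p * l') _).mp (mem_principalUnits.mp hv)
  obtain ⟨b, hb⟩ := exists_sub_pow_mem hϖ hp hpe he a
  obtain ⟨d, hd⟩ := (mem_maximalIdeal_pow_iff hϖ 1 _).mp
    (by rwa [pow_one] : a - b ^ p ∈ maximalIdeal O ^ 1)
  rw [pow_one] at hd
  have hy : IsUnit (1 + ϖ ^ l' * b) :=
    isUnit_one_add_of_mem O (Ideal.mul_mem_right _ _ (uniformizer_pow_mem_maximalIdeal hϖ hl'))
  obtain ⟨r, hr⟩ := one_add_pow_prime_eq hp (ϖ ^ l' * b)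
  obtain ⟨m, hm⟩ : ∃ m, e + l' = p * l' + 1 + m := ⟨e + l' - (p * l' + 1), by omega⟩
  have hpow1 : ϖ ^ e * ϖ ^ l' = ϖ ^ (p * l' + 1) * ϖ ^ m := by
    rw [← pow_add, hm, pow_add]
  refine ⟨hy.unit, mul_inv_mem_principalUnits hϖ (p * l' + 1) v (hy.unit ^ p)
    (d - ϖ ^ m * (υ : O) * b * (1 + ϖ ^ l' * b * r)) ?_⟩
  rw [Units.val_pow_eq_pow_val, IsUnit.unit_spec]
  linear_combination ha - hr - (ϖ ^ l' * b + (ϖ ^ l' * b) ^ 2 * r) * hpe + ϖ ^ (p * l') * hd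
    - ((υ : O) * b * (1 + ϖ ^ l' * b * r)) * hpow1

/-- One step of the peeling: from level `l` (`1 ≤ l < e`) either to level `l + 1`, or `p ∤ l` and
the level is exactly `l`. -/
lemma step [Finite (ResidueField O)] {ϖ : O} (hϖ : Irreducible ϖ) {p : ℕ} (hp : p.Prime)
    {e : ℕ} {υ : Oˣ} (hpe : (p : O) = ϖ ^ e * (υ : O)) {l : ℕ} (hl1 : 1 ≤ l) (hle : l < e)
    (u w : Oˣ) (hv : u * (w ^ p)⁻¹ ∈ principalUnits O l) :
    (∃ w' : Oˣ, u * (w' ^ p)⁻¹ ∈ principalUnits O (l + 1)) ∨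
      (¬ p ∣ l ∧ u * (w ^ p)⁻¹ ∉ principalUnits O (l + 1)) := by
  by_cases hmem : u * (w ^ p)⁻¹ ∈ principalUnits O (l + 1)
  · exact Or.inl ⟨w, hmem⟩
  by_cases hdvd : p ∣ l
  · obtain ⟨l', rfl⟩ := hdvd
    have hl' : 1 ≤ l' := by
      rcases Nat.eq_zero_or_pos l' with h | h
      · subst h; simp at hl1
      · exact h
    obtain ⟨y, hy⟩ := exists_mem_succ_of_dvd hϖ hp hpe hl' hle (u * (w ^ p)⁻¹) hv
    refine Or.inl ⟨w * y, ?_⟩
    have : u * ((w * y) ^ p)⁻¹ = u * (w ^ p)⁻¹ * (y ^ p)⁻¹ := by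
      rw [mul_pow, mul_inv, mul_assoc]
    rw [this]
    exact hy
  · exact Or.inr ⟨hdvd, hmem⟩

/-- **[Peel], generic DVR half.**  Modulo `p`-th powers, a unit of a discrete valuation ring with
finite residue field and `p = ϖ^e υ`, `e ≥ 1`, is in `U_e` or has exact level `i` with
`1 ≤ i < e`, `p ∤ i`. -/
theorem exists_peel {O : Type*} [CommRing O] [IsDomain O] [IsDiscreteValuationRing O]
    [Finite (ResidueField O)] {ϖ : O} (hϖ : Irreducible ϖ) {p : ℕ} (hp : p.Prime) {e : ℕ}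
    {υ : Oˣ} (hpe : (p : O) = ϖ ^ e * (υ : O)) (he : 1 ≤ e) (u : Oˣ) :
    (∃ w : Oˣ, u * (w ^ p)⁻¹ ∈ principalUnits O e) ∨
    (∃ w : Oˣ, ∃ i : ℕ, 1 ≤ i ∧ i < e ∧ ¬ p ∣ i ∧ u * (w ^ p)⁻¹ ∈ principalUnits O i ∧
      u * (w ^ p)⁻¹ ∉ principalUnits O (i + 1)) := by
  -- induction on the distance to `e`
  have key : ∀ n l : ℕ, l + n = e → 1 ≤ l → (∃ w : Oˣ, u * (w ^ p)⁻¹ ∈ principalUnits O l) →
      (∃ w : Oˣ, u * (w ^ p)⁻¹ ∈ principalUnits O e) ∨
      (∃ w : Oˣ, ∃ i : ℕ, 1 ≤ i ∧ i < e ∧ ¬ p ∣ i ∧ u * (w ^ p)⁻¹ ∈ principalUnits O i ∧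
        u * (w ^ p)⁻¹ ∉ principalUnits O (i + 1)) := by
    intro n
    induction n with
    | zero =>
      intro l hl _ hw
      rw [add_zero] at hl
      subst hl
      exact Or.inl hw
    | succ n ih =>
      intro l hl hl1 hw
      obtain ⟨w, hw⟩ := hw
      have hle : l < e := by omega
      rcases step hϖ hp hpe hl1 hle u w hw with h | ⟨h1, h2⟩
      · exact ih (l + 1) (by omega) (by omega) h
      · exact Or.inr ⟨w, l, hl1, hle, h1, hw, h2⟩
  exact key (e - 1) 1 (by omega) le_rfl (exists_mem_one hϖ hp hpe he u)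

end Fermat.Agent.S56.Flat.LF5.Peel
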