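import Mathlib
import Fermat.Agent.CFT.Local.NormedLocal

/-!
# S56 / LF row B2 (LF5): the norm of `ζ_p - 1`

For a primitive `p`-th root of unity `ζ` in an ultrametric normed field,
`‖ζ - 1‖ ^ (p - 1) = ‖p‖`.  In a local field with uniformiser `ϖ` this gives
`‖p‖ = ‖ϖ‖ ^ ((p - 1) e0)` with `‖ζ - 1‖ = ‖ϖ‖ ^ e0`, i.e. `(p - 1) ∣ e`.
-/

set_option autoImplicit false

namespace Fermat.Agent.S56.Flat.LF5.ZetaNorm

open scoped NNReal NormedField Valued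
open IsLocalRing Fermat.Agent.CFT.Local.NormedLocal

section Generic

variable {K : Type*} [NormedField K] [IsUltrametricDist K]

/-- `‖1 - x ^ j‖ ≤ ‖1 - x‖` for `‖x‖ ≤ 1`. -/
theorem norm_one_sub_pow_le {x : K} (hx : ‖x‖ ≤ 1) (j : ℕ) : ‖1 - x ^ j‖ ≤ ‖1 - x‖ := by
  have h := mul_neg_geom_sum x j
  rw [← h, norm_mul]
  have h1 : ‖∑ i ∈ Finset.range j, x ^ i‖ ≤ 1 :=
    IsUltrametricDist.norm_sum_le_of_forall_le_of_nonneg zero_le_one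
      (fun i _ => by rw [norm_pow]; exact pow_le_one₀ (norm_nonneg _) hx)
  calc ‖1 - x‖ * ‖∑ i ∈ Finset.range j, x ^ i‖ ≤ ‖1 - x‖ * 1 :=
        mul_le_mul_of_nonneg_left h1 (norm_nonneg _)
    _ = ‖1 - x‖ := mul_one _

/-- All `1 - ζ ^ j`, `p ∤ j`, have the norm of `1 - ζ`. -/
theorem norm_one_sub_pow_eq {p : ℕ} (hp : p.Prime) {ζ : K} (hζ : IsPrimitiveRoot ζ p) {j : ℕ}
    (hj : ¬ p ∣ j) : ‖1 - ζ ^ j‖ = ‖1 - ζ‖ := by
  have hζ1 : ‖ζ‖ = 1 := by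
    have h1 : ‖ζ‖ ^ p = 1 := by rw [← norm_pow, hζ.pow_eq_one, norm_one]
    exact (pow_eq_one_iff_of_nonneg (norm_nonneg ζ) hp.ne_zero).mp h1
  apply le_antisymm (norm_one_sub_pow_le hζ1.le j)
  have hcop : j.Coprime p := ((Nat.Prime.coprime_iff_not_dvd hp).mpr hj).symm
  have hζj : IsPrimitiveRoot (ζ ^ j) p := hζ.pow_of_coprime j hcop
  haveI : NeZero p := ⟨hp.ne_zero⟩
  obtain ⟨i, -, hi⟩ := hζj.eq_pow_of_pow_eq_one hζ.pow_eq_one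
  have hζj1 : ‖ζ ^ j‖ ≤ 1 := by rw [norm_pow, hζ1, one_pow]
  have h2 := norm_one_sub_pow_le hζj1 i
  rwa [hi] at h2

/-- **`‖ζ - 1‖ ^ (p - 1) = ‖p‖`** for a primitive `p`-th root of unity `ζ`. -/
theorem norm_sub_one_pow_eq {p : ℕ} (hp : p.Prime) {ζ : K} (hζ : IsPrimitiveRoot ζ p) :
    ‖ζ - 1‖ ^ (p - 1) = ‖(p : K)‖ := by
  have hp1 : p - 1 + 1 = p := Nat.sub_add_cancel hp.one_le
  have hζ' : IsPrimitiveRoot ζ (p - 1 + 1) := by rwa [hp1]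
  have h := hζ'.prod_one_sub_pow_eq_order
  have h2 : (((p - 1 : ℕ) : K) + 1) = (p : K) := by
    have : ((p - 1 + 1 : ℕ) : K) = (p : K) := by rw [hp1]
    rw [← this]
    push_cast
    rfl
  rw [h2] at h
  rw [← h, norm_prod, norm_sub_rev]
  have h3 : ∀ k ∈ Finset.range (p - 1), ‖1 - ζ ^ (k + 1)‖ = ‖1 - ζ‖ := by
    intro k hk
    apply norm_one_sub_pow_eq hp hζ
    intro hdvd
    have h4 := Nat.le_of_dvd (Nat.succ_pos k) hdvd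
    have h5 := Finset.mem_range.mp hk
    omega
  rw [Finset.prod_congr rfl h3, Finset.prod_const, Finset.card_range]

end Generic

section Local

variable {K : Type*} [NontriviallyNormedField K] [IsUltrametricDist K] [ProperSpace K]

/-- **`(p - 1) ∣ e`, norm form.**  If the local field `K` contains a primitive `p`-th root of
unity and `‖p‖ < 1`, then `‖ζ - 1‖ = ‖ϖ‖ ^ e0` and `‖p‖ = ‖ϖ‖ ^ ((p - 1) e0)` with `e0 ≥ 1`. -/
theorem exists_e0 {p : ℕ} (hp : p.Prime) {ζ : K} (hζ : IsPrimitiveRoot ζ p)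
    (hp0 : ‖(p : K)‖ < 1) {ϖ : 𝒪[K]} (hϖ : Irreducible ϖ) :
    ∃ e0 : ℕ, 1 ≤ e0 ∧ ‖ζ - 1‖ = ‖(ϖ : K)‖ ^ e0 ∧
      ‖(p : K)‖ = ‖(ϖ : K)‖ ^ ((p - 1) * e0) := by
  have hϖ0 : 0 < ‖(ϖ : K)‖ := Valued.integer.norm_irreducible_pos hϖ
  have hϖ1 : ‖(ϖ : K)‖ < 1 := Valued.integer.norm_irreducible_lt_one hϖ
  have hpow := norm_sub_one_pow_eq hp hζ
  have hz0 : ζ - 1 ≠ 0 := sub_ne_zero.mpr (hζ.ne_one hp.one_lt)
  have hz1 : ‖ζ - 1‖ < 1 := by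
    by_contra hcon
    rw [not_lt] at hcon
    have : (1 : ℝ) ≤ ‖ζ - 1‖ ^ (p - 1) := one_le_pow₀ hcon
    rw [hpow] at this
    exact absurd hp0 (not_lt.mpr this)
  obtain ⟨n, hn⟩ := exists_norm_eq_zpow hϖ hz0
  have hnpos : 0 < n := by
    by_contra hcon
    rw [not_lt] at hcon
    have h1 : (1 : ℝ) ≤ ‖(ϖ : K)‖ ^ n := one_le_zpow_of_nonpos₀ hϖ0 hϖ1.le hcon
    rw [← hn] at h1
    exact absurd hz1 (not_lt.mpr h1)
  have hn' : ‖ζ - 1‖ = ‖(ϖ : K)‖ ^ n.toNat := by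
    rw [hn, ← zpow_natCast, Int.toNat_of_nonneg hnpos.le]
  refine ⟨n.toNat, by omega, hn', ?_⟩
  rw [← hpow, hn', ← pow_mul, mul_comm]

end Local

end Fermat.Agent.S56.Flat.LF5.ZetaNorm
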