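import Mathlib
import Fermat.Agent.CFT.Local.PadicExt
import Fermat.Agent.S56.Flat.LF5.Peel
import Fermat.Agent.S56.Flat.LF5.ZetaNorm
import Fermat.Agent.S56.LF.LevelBound.Norm

/-!
# S56 / LF row B2 (LF5): the peeling lemma in norm form

In a local field `K` with uniformiser `ϖ` and `‖p‖ = ‖ϖ‖ ^ e`, `e ≥ 1`, every `u` of norm `1`
is, modulo `p`-th powers of elements of norm `1`, either congruent to `1` modulo `p` or of exact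
level `i` with `1 ≤ i < e`, `p ∤ i` (norm form of `Flat.LF5.Peel.exists_peel`).

* `exists_peel_of_irreducible` : generic local field, `ϖ : 𝒪[K]` irreducible;
* `exists_peel_of_norm_max` : generic local field, `ϖ : K` of maximal norm `< 1`;
* `exists_peel_norm` : `K` a finite extension of `ℚ_p` inside `PadicAlgCl p`, everything read
  through the norm of `PadicAlgCl p` (the form consumed by `Reduce`);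
* `exists_e0_norm` : in the same vocabulary, `ζ_p ∈ K` gives `‖ζ_p - 1‖ = ‖ϖ‖ ^ e0` and
  `‖p‖ = ‖ϖ‖ ^ ((p - 1) e0)`, `e0 ≥ 1`.
-/

set_option autoImplicit false

namespace Fermat.Agent.S56.Flat.LF5.PeelNorm

open scoped NNReal NormedField Valued
open IsLocalRing Fermat.Agent.CFT.Local Fermat.Agent.CFT.Local.NormedLocal
open Fermat.Agent.S56.LF.LevelBound

variable {K : Type*} [NontriviallyNormedField K] [IsUltrametricDist K] [ProperSpace K]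

omit [ProperSpace K] in
/-- Coercion of the inverse of a unit of `𝒪[K]`. -/
theorem coe_units_inv (x : 𝒪[K]ˣ) :
    (((x⁻¹ : 𝒪[K]ˣ) : 𝒪[K]) : K) = ((x : 𝒪[K]) : K)⁻¹ := by
  have h1 : ((x : 𝒪[K]) * ((x⁻¹ : 𝒪[K]ˣ) : 𝒪[K]) : 𝒪[K]) = 1 := x.mul_inv
  have h : ((x : 𝒪[K]) : K) * (((x⁻¹ : 𝒪[K]ˣ) : 𝒪[K]) : K) = 1 :=
    congrArg (Subtype.val : 𝒪[K] → K) h1
  exact eq_inv_of_mul_eq_one_right h

/-- Membership in `U_n` is a norm inequality. -/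
theorem mem_principalUnits_iff_norm {ϖ : 𝒪[K]} (hϖ : Irreducible ϖ) (n : ℕ) (x : 𝒪[K]ˣ) :
    x ∈ principalUnits 𝒪[K] n ↔ ‖((x : 𝒪[K]) : K) - 1‖ ≤ ‖(ϖ : K)‖ ^ n := by
  rw [mem_principalUnits, maximalIdeal_pow_eq_span hϖ, mem_span_singleton_iff_norm_le]
  have h1 : ((((x : 𝒪[K]) - 1 : 𝒪[K]) : 𝒪[K]) : K) = ((x : 𝒪[K]) : K) - 1 := rfl
  have h2 : (((ϖ ^ n : 𝒪[K]) : 𝒪[K]) : K) = (ϖ : K) ^ n := rfl
  rw [h1, h2, norm_pow]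

/-- The norm of a non-zero integer is a power of the norm of a uniformiser. -/
theorem exists_norm_eq_pow_of_norm_le_one {ϖ : 𝒪[K]} (hϖ : Irreducible ϖ) {y : K} (hy : y ≠ 0)
    (hy1 : ‖y‖ ≤ 1) : ∃ j : ℕ, ‖y‖ = ‖(ϖ : K)‖ ^ j := by
  have hy0 : (⟨y, Valued.integer.mem_iff.mpr hy1⟩ : 𝒪[K]) ≠ 0 := by
    intro h
    exact hy (congrArg Subtype.val h)
  obtain ⟨n, u, hu⟩ := IsDiscreteValuationRing.eq_unit_mul_pow_irreducible hy0 hϖ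
  refine ⟨n, ?_⟩
  have h2 : y = ((u : 𝒪[K]) : K) * (ϖ : K) ^ n := congrArg Subtype.val hu
  rw [h2, norm_mul, Valued.integer.norm_coe_unit, one_mul, norm_pow]

/-- **[Peel], norm form**, for an irreducible `ϖ : 𝒪[K]`. -/
theorem exists_peel_of_irreducible {p : ℕ} (hp : p.Prime) (hp0 : (p : K) ≠ 0) {ϖ : 𝒪[K]}
    (hϖ : Irreducible ϖ) {e : ℕ} (he1 : 1 ≤ e) (he : ‖(p : K)‖ = ‖(ϖ : K)‖ ^ e) {u : K}
    (hu : ‖u‖ = 1) :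
    (∃ w : K, ‖w‖ = 1 ∧ ‖u / w ^ p - 1‖ ≤ ‖(p : K)‖) ∨
    (∃ w : K, ‖w‖ = 1 ∧ ∃ i : ℕ, 1 ≤ i ∧ i < e ∧ ¬ p ∣ i ∧
      ‖u / w ^ p - 1‖ = ‖(ϖ : K)‖ ^ i) := by
  have hϖ0 : 0 < ‖(ϖ : K)‖ := Valued.integer.norm_irreducible_pos hϖ
  have hϖ1 : ‖(ϖ : K)‖ < 1 := Valued.integer.norm_irreducible_lt_one hϖ
  have hpO : ((p : ℕ) : 𝒪[K]) ≠ 0 := by
    intro h
    apply hp0
    have := congrArg (Subtype.val : 𝒪[K] → K) h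
    simpa using this
  obtain ⟨n, υ, hυ⟩ := IsDiscreteValuationRing.eq_unit_mul_pow_irreducible hpO hϖ
  have hnp : ‖(p : K)‖ = ‖(ϖ : K)‖ ^ n := by
    have h2 : ((p : ℕ) : K) = ((υ : 𝒪[K]) : K) * (ϖ : K) ^ n := by
      have := congrArg (Subtype.val : 𝒪[K] → K) hυ
      simpa using this
    rw [h2, norm_mul, Valued.integer.norm_coe_unit, one_mul, norm_pow]
  have hne : n = e := by
    rw [he] at hnp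
    exact ((pow_eq_pow_iff_of_lt_one' hϖ0 hϖ1).mp hnp).symm
  have hpe : ((p : ℕ) : 𝒪[K]) = ϖ ^ e * (υ : 𝒪[K]) := by rw [hυ, hne, mul_comm]
  let uO : 𝒪[K] := ⟨u, Valued.integer.mem_iff.mpr hu.le⟩
  have huU : IsUnit uO := Valued.integer.isUnit_iff_norm_eq_one.mpr hu
  have hcoe : ∀ w : 𝒪[K]ˣ, (((huU.unit * (w ^ p)⁻¹ : 𝒪[K]ˣ) : 𝒪[K]) : K) =
      u / ((w : 𝒪[K]) : K) ^ p := by
    intro w
    have h1 : (((huU.unit * (w ^ p)⁻¹ : 𝒪[K]ˣ) : 𝒪[K]) : K) =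
        ((huU.unit : 𝒪[K]) : K) * ((((w ^ p)⁻¹ : 𝒪[K]ˣ) : 𝒪[K]) : K) := rfl
    have h2 : ((huU.unit : 𝒪[K]) : K) = u := rfl
    have h3 : (((w ^ p : 𝒪[K]ˣ) : 𝒪[K]) : K) = ((w : 𝒪[K]) : K) ^ p := rfl
    rw [h1, h2, coe_units_inv, h3, div_eq_mul_inv]
  rcases Peel.exists_peel hϖ hp hpe he1 huU.unit with ⟨w, hw⟩ | ⟨w, i, hi1, hie, hpi, hw1, hw2⟩
  · left
    refine ⟨((w : 𝒪[K]) : K), Valued.integer.norm_coe_unit w, ?_⟩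
    rw [mem_principalUnits_iff_norm hϖ, hcoe] at hw
    rw [he]
    exact hw
  · right
    refine ⟨((w : 𝒪[K]) : K), Valued.integer.norm_coe_unit w, i, hi1, hie, hpi, ?_⟩
    rw [mem_principalUnits_iff_norm hϖ, hcoe] at hw1 hw2
    have hy0 : u / ((w : 𝒪[K]) : K) ^ p - 1 ≠ 0 := by
      intro h
      apply hw2
      rw [h, norm_zero]
      exact (pow_pos hϖ0 _).le
    have hy1 : ‖u / ((w : 𝒪[K]) : K) ^ p - 1‖ ≤ 1 :=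
      hw1.trans (pow_le_one₀ hϖ0.le hϖ1.le)
    obtain ⟨j, hj⟩ := exists_norm_eq_pow_of_norm_le_one hϖ hy0 hy1
    rw [hj] at hw1 hw2 ⊢
    have h1 : i ≤ j := (pow_le_pow_iff_of_lt_one' hϖ0 hϖ1).mp hw1
    have h2 : ¬ (i + 1 ≤ j) := fun h => hw2 ((pow_le_pow_iff_of_lt_one' hϖ0 hϖ1).mpr h)
    have h3 : j = i := by omega
    rw [h3]

/-- An element of maximal norm `< 1` has the norm of a uniformiser. -/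
theorem exists_irreducible_norm_eq {x : K} (hx1 : ‖x‖ < 1)
    (hmax : ∀ y : K, ‖y‖ < 1 → ‖y‖ ≤ ‖x‖) : ∃ ϖ : 𝒪[K], Irreducible ϖ ∧ ‖(ϖ : K)‖ = ‖x‖ := by
  obtain ⟨ϖ, hϖ⟩ := IsDiscreteValuationRing.exists_irreducible 𝒪[K]
  have hϖ0 : 0 < ‖(ϖ : K)‖ := Valued.integer.norm_irreducible_pos hϖ
  have hϖ1 : ‖(ϖ : K)‖ < 1 := Valued.integer.norm_irreducible_lt_one hϖ
  have hle : ‖(ϖ : K)‖ ≤ ‖x‖ := hmax _ hϖ1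
  have hx0 : x ≠ 0 := by
    rintro rfl
    rw [norm_zero] at hle
    exact absurd hle (not_le.mpr hϖ0)
  obtain ⟨j, hj⟩ := exists_norm_eq_pow_of_norm_le_one hϖ hx0 hx1.le
  refine ⟨ϖ, hϖ, le_antisymm hle ?_⟩
  have hj1 : 1 ≤ j := by
    rcases Nat.eq_zero_or_pos j with h | h
    · rw [h, pow_zero] at hj
      exact absurd hj hx1.ne
    · exact h
  rw [hj]
  calc ‖(ϖ : K)‖ ^ j ≤ ‖(ϖ : K)‖ ^ 1 := pow_le_pow_of_le_one hϖ0.le hϖ1.le hj1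
    _ = ‖(ϖ : K)‖ := pow_one _

/-- **[Peel], norm form**, for `ϖ : K` of maximal norm `< 1`. -/
theorem exists_peel_of_norm_max {p : ℕ} (hp : p.Prime) (hp0 : (p : K) ≠ 0) {ϖ : K}
    (hϖ1 : ‖ϖ‖ < 1) (hmax : ∀ y : K, ‖y‖ < 1 → ‖y‖ ≤ ‖ϖ‖) {e : ℕ} (he1 : 1 ≤ e)
    (he : ‖(p : K)‖ = ‖ϖ‖ ^ e) {u : K} (hu : ‖u‖ = 1) :
    (∃ w : K, ‖w‖ = 1 ∧ ‖u / w ^ p - 1‖ ≤ ‖(p : K)‖) ∨
    (∃ w : K, ‖w‖ = 1 ∧ ∃ i : ℕ, 1 ≤ i ∧ i < e ∧ ¬ p ∣ i ∧ ‖u / w ^ p - 1‖ = ‖ϖ‖ ^ i) := by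
  obtain ⟨ϖ', hϖ', hnorm⟩ := exists_irreducible_norm_eq hϖ1 hmax
  rw [← hnorm] at he ⊢
  exact exists_peel_of_irreducible hp hp0 hϖ' he1 he hu

section Padic

open Fermat.Agent.CFT.Local.PadicExt

variable {p : ℕ} [Fact p.Prime]

/-- **[Peel], norm form inside `PadicAlgCl p`** (the literal consumed by `Reduce`). -/
theorem exists_peel_norm (K : IntermediateField ℚ_[p] (PadicAlgCl p))
    [FiniteDimensional ℚ_[p] K] {ϖ : PadicAlgCl p} (hϖK : ϖ ∈ K) (hϖ1 : ‖ϖ‖ < 1)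
    (hmax : ∀ x ∈ K, ‖x‖ < 1 → ‖x‖ ≤ ‖ϖ‖) {e : ℕ} (he : 1 ≤ e)
    (hpe : ‖((p : ℕ) : PadicAlgCl p)‖ = ‖ϖ‖ ^ e) {u : PadicAlgCl p} (huK : u ∈ K)
    (hu : ‖u‖ = 1) :
    (∃ w ∈ K, w ≠ 0 ∧ ‖u / w ^ p - 1‖ ≤ ‖((p : ℕ) : PadicAlgCl p)‖) ∨
    (∃ w ∈ K, w ≠ 0 ∧ ∃ i : ℕ, 1 ≤ i ∧ i < e ∧ ¬ p ∣ i ∧ ‖u / w ^ p - 1‖ = ‖ϖ‖ ^ i) := by
  have hp : p.Prime := Fact.out
  have hpK : ‖((p : ℕ) : K)‖ = ‖((p : ℕ) : PadicAlgCl p)‖ := rfl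
  have hp0 : ((p : ℕ) : K) ≠ 0 := by
    intro h
    have h1 := norm_natCast_self p K
    rw [h, norm_zero] at h1
    have h2 : (0 : ℝ) < (p : ℝ)⁻¹ := inv_pos.mpr (by exact_mod_cast hp.pos)
    exact absurd h1 h2.ne
  have hmaxK : ∀ y : K, ‖y‖ < 1 → ‖y‖ ≤ ‖(⟨ϖ, hϖK⟩ : K)‖ := fun y hy => hmax y y.2 hy
  have heK : ‖((p : ℕ) : K)‖ = ‖(⟨ϖ, hϖK⟩ : K)‖ ^ e := by rw [hpK, hpe]; rfl
  have hcoe : ∀ w : K, ‖(⟨u, huK⟩ : K) / w ^ p - 1‖ = ‖u / (w : PadicAlgCl p) ^ p - 1‖ :=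
    fun w => rfl
  have hw0 : ∀ w : K, ‖w‖ = 1 → (w : PadicAlgCl p) ≠ 0 := by
    intro w hw h
    have h1 : ‖(w : PadicAlgCl p)‖ = 1 := hw
    rw [h, norm_zero] at h1
    exact zero_ne_one h1
  rcases exists_peel_of_norm_max (K := K) hp hp0 (ϖ := ⟨ϖ, hϖK⟩) hϖ1 hmaxK he heK
      (u := ⟨u, huK⟩) hu with ⟨w, hw1, hw⟩ | ⟨w, hw1, i, hi1, hie, hpi, hw⟩
  · left
    refine ⟨w, w.2, hw0 w hw1, ?_⟩
    rw [hcoe, hpK] at hw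
    exact hw
  · right
    refine ⟨w, w.2, hw0 w hw1, i, hi1, hie, hpi, ?_⟩
    rw [hcoe] at hw
    exact hw

/-- **`(p - 1) ∣ e` inside `PadicAlgCl p`**: if `ζ_p ∈ K` and `ϖ ∈ K` has maximal norm `< 1`, then
`‖ζ_p - 1‖ = ‖ϖ‖ ^ e0` and `‖p‖ = ‖ϖ‖ ^ ((p - 1) e0)` with `e0 ≥ 1`. -/
theorem exists_e0_norm (K : IntermediateField ℚ_[p] (PadicAlgCl p))
    [FiniteDimensional ℚ_[p] K] {ϖ : PadicAlgCl p} (hϖK : ϖ ∈ K) (hϖ1 : ‖ϖ‖ < 1)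
    (hmax : ∀ x ∈ K, ‖x‖ < 1 → ‖x‖ ≤ ‖ϖ‖) {ζ : PadicAlgCl p} (hζ : IsPrimitiveRoot ζ p)
    (hζK : ζ ∈ K) :
    ∃ e0 : ℕ, 1 ≤ e0 ∧ ‖ζ - 1‖ = ‖ϖ‖ ^ e0 ∧
      ‖((p : ℕ) : PadicAlgCl p)‖ = ‖ϖ‖ ^ ((p - 1) * e0) := by
  have hp : p.Prime := Fact.out
  have hpK : ‖((p : ℕ) : K)‖ = ‖((p : ℕ) : PadicAlgCl p)‖ := rfl
  have hp1 : ‖((p : ℕ) : K)‖ < 1 := by
    rw [norm_natCast_self p K]
    exact inv_lt_one_of_one_lt₀ (by exact_mod_cast hp.one_lt)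
  have hmaxK : ∀ y : K, ‖y‖ < 1 → ‖y‖ ≤ ‖(⟨ϖ, hϖK⟩ : K)‖ := fun y hy => hmax y y.2 hy
  obtain ⟨ϖ', hϖ', hnorm⟩ := exists_irreducible_norm_eq (K := K) (x := ⟨ϖ, hϖK⟩) hϖ1 hmaxK
  have hnorm' : ‖(ϖ' : K)‖ = ‖ϖ‖ := hnorm
  have hζ' : IsPrimitiveRoot (⟨ζ, hζK⟩ : K) p := by
    have hinj : Function.Injective (algebraMap K (PadicAlgCl p)) :=
      FaithfulSMul.algebraMap_injective K (PadicAlgCl p)
    exact (IsPrimitiveRoot.map_iff_of_injective hinj).mp hζ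
  obtain ⟨e0, he0, h1, h2⟩ := ZetaNorm.exists_e0 (K := K) hp hζ' hp1 hϖ'
  refine ⟨e0, he0, ?_, ?_⟩
  · rw [← hnorm', ← h1]
    rfl
  · rw [← hnorm', ← h2, hpK]

end Padic

end Fermat.Agent.S56.Flat.LF5.PeelNorm
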