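/-
S56 / LF row B2 (LF5), half B: THE QUADRATIC STEP (helper86).

`K` a finite extension of `ℚ_p` inside `PadicAlgCl p`, `ϖ ∈ K` of largest norm `< 1` in `K`
(a uniformiser, in norm form).  Then `K2 := K(r)`, `r ^ 2 = ϖ`, is a finite extension in which
`r` has the largest norm `< 1`: so the ramification index doubles, `‖ϖ‖ ^ i = ‖r‖ ^ (2 i)`.
This is the device of the reduction `MainStatement p → LevelBoundStatement p`
(exact level `i < e` in `K` becomes level `2 i` with `2 i + 2 ≤ 2 e` in `K2`).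

* `quadField K r hr hrK`  : the intermediate field `K + K r` (`r ^ 2 ∈ K`, `r ∉ K`);
* `exists_zpow_norm_eq`   : non-zero norms of `K` are integral powers of `‖ϖ‖`;
* `exists_zpow_norm_add_mul` : `‖a + b r‖ ∈ ‖r‖ ^ ℤ` for `a, b ∈ K` (parity of exponents);
* `exists_quad_gen`       : the quadratic step over any ultrametric algebraically closed `Ω`;
* `exists_quad`           : the literal of the B2 deal (report #7579 (4));
* `exists_quad'`          : the same with `r ∉ K`, the normal form `a + b r` and the norm group.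

`import Mathlib` only.
-/
import Mathlib

set_option autoImplicit false
set_option linter.style.haveILetI false

namespace Fermat.Agent.S56.Flat.LF5.Quad

section Field

variable {F Ω : Type*} [Field F] [Field Ω] [Algebra F Ω]

/-- The field `K(r) = K + K r` for `r ^ 2 ∈ K`, `r ∉ K`. -/
def quadField (K : IntermediateField F Ω) (r : Ω) (hr : r ^ 2 ∈ K) (hrK : r ∉ K) :
    IntermediateField F Ω where
  carrier := {x | ∃ a ∈ K, ∃ b ∈ K, x = a + b * r}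
  mul_mem' := by
    rintro _ _ ⟨a, ha, b, hb, rfl⟩ ⟨c, hc, d, hd, rfl⟩
    refine ⟨a * c + b * d * r ^ 2, add_mem (mul_mem ha hc) (mul_mem (mul_mem hb hd) hr),
      a * d + b * c, add_mem (mul_mem ha hd) (mul_mem hb hc), ?_⟩
    ring
  one_mem' := ⟨1, one_mem K, 0, zero_mem K, by ring⟩
  add_mem' := by
    rintro _ _ ⟨a, ha, b, hb, rfl⟩ ⟨c, hc, d, hd, rfl⟩
    exact ⟨a + c, add_mem ha hc, b + d, add_mem hb hd, by ring⟩
  zero_mem' := ⟨0, zero_mem K, 0, zero_mem K, by ring⟩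
  algebraMap_mem' := fun c => ⟨algebraMap F Ω c, K.algebraMap_mem c, 0, zero_mem K, by ring⟩
  inv_mem' := by
    rintro _ ⟨a, ha, b, hb, rfl⟩
    by_cases hb0 : b = 0
    · subst hb0
      exact ⟨a⁻¹, inv_mem ha, 0, zero_mem K, by simp⟩
    · have hne : a - b * r ≠ 0 := by
        intro h
        apply hrK
        have h1 : r = a / b := by
          field_simp
          linear_combination -h
        rw [h1]
        exact div_mem ha hb
      have hne' : a + b * r ≠ 0 := by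
        intro h
        apply hrK
        have h1 : r = -a / b := by
          field_simp
          linear_combination h
        rw [h1]
        exact div_mem (neg_mem ha) hb
      have hN : a ^ 2 - b ^ 2 * r ^ 2 ≠ 0 := by
        have : a ^ 2 - b ^ 2 * r ^ 2 = (a + b * r) * (a - b * r) := by ring
        rw [this]
        exact mul_ne_zero hne' hne
      have hNK : a ^ 2 - b ^ 2 * r ^ 2 ∈ K :=
        sub_mem (pow_mem ha 2) (mul_mem (pow_mem hb 2) hr)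
      refine ⟨a / (a ^ 2 - b ^ 2 * r ^ 2), div_mem ha hNK, -b / (a ^ 2 - b ^ 2 * r ^ 2),
        div_mem (neg_mem hb) hNK, ?_⟩
      field_simp
      ring

theorem mem_quadField {K : IntermediateField F Ω} {r : Ω} {hr : r ^ 2 ∈ K} {hrK : r ∉ K}
    {x : Ω} : x ∈ quadField K r hr hrK ↔ ∃ a ∈ K, ∃ b ∈ K, x = a + b * r := Iff.rfl

theorem le_quadField (K : IntermediateField F Ω) (r : Ω) (hr : r ^ 2 ∈ K) (hrK : r ∉ K) :
    K ≤ quadField K r hr hrK := fun a ha => ⟨a, ha, 0, zero_mem K, by ring⟩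

theorem self_mem_quadField (K : IntermediateField F Ω) (r : Ω) (hr : r ^ 2 ∈ K) (hrK : r ∉ K) :
    r ∈ quadField K r hr hrK := ⟨0, zero_mem K, 1, one_mem K, by ring⟩

theorem quadField_le_sup (K : IntermediateField F Ω) (r : Ω) (hr : r ^ 2 ∈ K) (hrK : r ∉ K) :
    quadField K r hr hrK ≤ K ⊔ IntermediateField.adjoin F {r} := by
  rintro _ ⟨a, ha, b, hb, rfl⟩
  have hK : K ≤ K ⊔ IntermediateField.adjoin F {r} := le_sup_left
  have hr' : r ∈ K ⊔ IntermediateField.adjoin F {r} :=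
    (le_sup_right : IntermediateField.adjoin F {r} ≤ _) (IntermediateField.mem_adjoin_simple_self F r)
  exact add_mem (hK ha) (mul_mem (hK hb) hr')

theorem finiteDimensional_quadField (K : IntermediateField F Ω) [FiniteDimensional F K] (r : Ω)
    (hr : r ^ 2 ∈ K) (hrK : r ∉ K) (hint : IsIntegral F r) :
    FiniteDimensional F (quadField K r hr hrK) := by
  haveI : FiniteDimensional F (IntermediateField.adjoin F {r}) :=
    IntermediateField.adjoin.finiteDimensional hint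
  haveI : FiniteDimensional F ↥(K ⊔ IntermediateField.adjoin F {r}) :=
    IntermediateField.finiteDimensional_sup K _
  exact Module.Finite.of_injective
    (IntermediateField.inclusion (quadField_le_sup K r hr hrK)).toLinearMap
    (IntermediateField.inclusion_injective (quadField_le_sup K r hr hrK))

end Field

section Normed

variable {F Ω : Type*} [Field F] [NormedField Ω] [IsUltrametricDist Ω] [Algebra F Ω]

omit [IsUltrametricDist Ω] in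
/-- If `ϖ ∈ K` has the largest norm `< 1` in `K`, every non-zero element of `K` has norm an
integral power of `‖ϖ‖`. -/
theorem exists_zpow_norm_eq (K : IntermediateField F Ω) {ϖ : Ω} (hϖK : ϖ ∈ K) (hϖ0 : ϖ ≠ 0)
    (hϖ1 : ‖ϖ‖ < 1) (hmax : ∀ x ∈ K, ‖x‖ < 1 → ‖x‖ ≤ ‖ϖ‖) {y : Ω} (hy : y ∈ K) (hy0 : y ≠ 0) :
    ∃ n : ℤ, ‖y‖ = ‖ϖ‖ ^ n := by
  have hϖpos : 0 < ‖ϖ‖ := norm_pos_iff.mpr hϖ0
  have hypos : 0 < ‖y‖ := norm_pos_iff.mpr hy0
  have hinv : 1 < ‖ϖ‖⁻¹ := (one_lt_inv₀ hϖpos).mpr hϖ1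
  obtain ⟨n, hn1, hn2⟩ := exists_mem_Ico_zpow hypos hinv
  set t : ℝ := ‖ϖ‖ ^ n with ht
  have htpos : 0 < t := zpow_pos hϖpos n
  have h1 : 1 ≤ ‖y‖ * t := by
    rw [inv_zpow, ← ht] at hn1
    calc (1 : ℝ) = t⁻¹ * t := (inv_mul_cancel₀ htpos.ne').symm
      _ ≤ ‖y‖ * t := mul_le_mul_of_nonneg_right hn1 htpos.le
  have h2 : ‖y‖ * t < ‖ϖ‖⁻¹ := by
    rw [zpow_add_one₀ (inv_ne_zero hϖpos.ne'), inv_zpow, ← ht] at hn2
    calc ‖y‖ * t < t⁻¹ * ‖ϖ‖⁻¹ * t := mul_lt_mul_of_pos_right hn2 htpos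
      _ = ‖ϖ‖⁻¹ := by field_simp
  have hz : y * ϖ ^ n ∈ K := mul_mem hy (zpow_mem hϖK n)
  have hzn : ‖y * ϖ ^ n‖ = ‖y‖ * t := by rw [norm_mul, norm_zpow]
  have h3 : ‖y‖ * t = 1 := by
    by_contra hne
    have hgt : 1 < ‖y‖ * t := lt_of_le_of_ne h1 (Ne.symm hne)
    have hinvmem : (y * ϖ ^ n)⁻¹ ∈ K := inv_mem hz
    have hinvn : ‖(y * ϖ ^ n)⁻¹‖ = (‖y‖ * t)⁻¹ := by rw [norm_inv, hzn]
    have hlt : ‖(y * ϖ ^ n)⁻¹‖ < 1 := by
      rw [hinvn]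
      exact inv_lt_one_of_one_lt₀ hgt
    have hle := hmax _ hinvmem hlt
    rw [hinvn] at hle
    have hpos : 0 < ‖y‖ * t := lt_trans zero_lt_one hgt
    have : ‖ϖ‖⁻¹ ≤ ‖y‖ * t := by
      rw [inv_le_comm₀ hϖpos hpos]
      exact hle
    exact absurd h2 (not_lt.mpr this)
  refine ⟨-n, ?_⟩
  rw [zpow_neg, ← ht]
  exact eq_inv_of_mul_eq_one_left h3

/-- The norm of an element `a + b r` of `K(r)`, `r ^ 2 = ϖ`, is an integral power of `‖r‖`. -/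
theorem exists_zpow_norm_add_mul (K : IntermediateField F Ω) {ϖ r : Ω} (hϖK : ϖ ∈ K) (hϖ0 : ϖ ≠ 0)
    (hϖ1 : ‖ϖ‖ < 1) (hmax : ∀ x ∈ K, ‖x‖ < 1 → ‖x‖ ≤ ‖ϖ‖) (hr : r ^ 2 = ϖ) {a b : Ω}
    (ha : a ∈ K) (hb : b ∈ K) (hx0 : a + b * r ≠ 0) : ∃ k : ℤ, ‖a + b * r‖ = ‖r‖ ^ k := by
  have hr0 : r ≠ 0 := by
    rintro rfl
    apply hϖ0
    rw [← hr]
    ring
  have hrpos : 0 < ‖r‖ := norm_pos_iff.mpr hr0
  have hrϖ : ‖ϖ‖ = ‖r‖ ^ 2 := by rw [← hr, norm_pow]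
  have hr1 : ‖r‖ < 1 := by
    have h : ‖r‖ ^ 2 < 1 ^ 2 := by rw [← hrϖ, one_pow]; exact hϖ1
    exact lt_of_pow_lt_pow_left₀ 2 zero_le_one h
  have hK : ∀ y ∈ K, y ≠ 0 → ∃ n : ℤ, ‖y‖ = ‖r‖ ^ (2 * n) := by
    intro y hy hy0
    obtain ⟨n, hn⟩ := exists_zpow_norm_eq K hϖK hϖ0 hϖ1 hmax hy hy0
    refine ⟨n, ?_⟩
    rw [hn, hrϖ, zpow_mul, zpow_ofNat]
  by_cases hb0 : b = 0
  · subst hb0
    have ha0 : a ≠ 0 := by
      rintro rfl
      apply hx0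
      ring
    obtain ⟨n, hn⟩ := hK a ha ha0
    refine ⟨2 * n, ?_⟩
    rw [zero_mul, add_zero]
    exact hn
  · obtain ⟨n, hn⟩ := hK b hb hb0
    have hbr : ‖b * r‖ = ‖r‖ ^ (2 * n + 1) := by
      rw [norm_mul, hn, zpow_add_one₀ hrpos.ne']
    by_cases ha0 : a = 0
    · subst ha0
      refine ⟨2 * n + 1, ?_⟩
      rw [zero_add]
      exact hbr
    · obtain ⟨m, hm⟩ := hK a ha ha0
      have hne : ‖a‖ ≠ ‖b * r‖ := by
        rw [hm, hbr]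
        intro h
        have := zpow_right_injective₀ hrpos hr1.ne h
        omega
      have hmax' := IsUltrametricDist.norm_add_eq_max_of_norm_ne_norm hne
      rcases max_choice ‖a‖ ‖b * r‖ with h | h
      · exact ⟨2 * m, by rw [hmax', h, hm]⟩
      · exact ⟨2 * n + 1, by rw [hmax', h, hbr]⟩

/-- **The quadratic step, generic form.**  If `ϖ ∈ K` has the largest norm `< 1` in `K`, then
`K2 := K(r)`, `r ^ 2 = ϖ`, is a quadratic extension in which `r` has the largest norm `< 1`;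
every element of `K2` is `a + b r` with `a, b ∈ K` and has norm in `‖r‖ ^ ℤ ∪ {0}`. -/
theorem exists_quad_gen [IsAlgClosed Ω] [Algebra.IsAlgebraic F Ω] (K : IntermediateField F Ω)
    [FiniteDimensional F K] {ϖ : Ω} (hϖK : ϖ ∈ K) (hϖ0 : ϖ ≠ 0) (hϖ1 : ‖ϖ‖ < 1)
    (hmax : ∀ x ∈ K, ‖x‖ < 1 → ‖x‖ ≤ ‖ϖ‖) :
    ∃ (K2 : IntermediateField F Ω) (r : Ω), FiniteDimensional F K2 ∧ K ≤ K2 ∧ r ∈ K2 ∧
      r ^ 2 = ϖ ∧ (∀ x ∈ K2, ‖x‖ < 1 → ‖x‖ ≤ ‖r‖) ∧ r ∉ K ∧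
      (∀ x ∈ K2, ∃ a ∈ K, ∃ b ∈ K, x = a + b * r) ∧
      (∀ x ∈ K2, x ≠ 0 → ∃ k : ℤ, ‖x‖ = ‖r‖ ^ k) := by
  obtain ⟨r, hr⟩ := IsAlgClosed.exists_pow_nat_eq ϖ (n := 2) (by norm_num)
  have hr0 : r ≠ 0 := by
    rintro rfl
    apply hϖ0
    rw [← hr]
    ring
  have hrpos : 0 < ‖r‖ := norm_pos_iff.mpr hr0
  have hrϖ : ‖ϖ‖ = ‖r‖ ^ 2 := by rw [← hr, norm_pow]
  have hr1 : ‖r‖ < 1 := by
    have h : ‖r‖ ^ 2 < 1 ^ 2 := by rw [← hrϖ, one_pow]; exact hϖ1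
    exact lt_of_pow_lt_pow_left₀ 2 zero_le_one h
  have hrK : r ∉ K := by
    intro h
    have h1 := hmax r h hr1
    rw [hrϖ] at h1
    have h2 : ‖r‖ ^ 2 < ‖r‖ := by
      calc ‖r‖ ^ 2 = ‖r‖ * ‖r‖ := sq _
        _ < 1 * ‖r‖ := mul_lt_mul_of_pos_right hr1 hrpos
        _ = ‖r‖ := one_mul _
    exact absurd h1 (not_le.mpr h2)
  have hr2K : r ^ 2 ∈ K := by rw [hr]; exact hϖK
  have hnorm : ∀ x ∈ quadField K r hr2K hrK, x ≠ 0 → ∃ k : ℤ, ‖x‖ = ‖r‖ ^ k := by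
    rintro _ ⟨a, ha, b, hb, rfl⟩ hx0
    exact exists_zpow_norm_add_mul K hϖK hϖ0 hϖ1 hmax hr ha hb hx0
  refine ⟨quadField K r hr2K hrK, r,
    finiteDimensional_quadField K r hr2K hrK (Algebra.IsIntegral.isIntegral r),
    le_quadField K r hr2K hrK, self_mem_quadField K r hr2K hrK, hr, ?_, hrK, fun x hx => hx, hnorm⟩
  intro x hx hx1
  by_cases hx0 : x = 0
  · rw [hx0, norm_zero]
    exact hrpos.le
  · obtain ⟨k, hk⟩ := hnorm x hx hx0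
    rw [hk] at hx1 ⊢
    have hk1 : 0 < k := by
      have h : ‖r‖ ^ k < ‖r‖ ^ (0 : ℤ) := by rw [zpow_zero]; exact hx1
      exact (zpow_lt_zpow_iff_right_of_lt_one₀ hrpos hr1).mp h
    have h2 : ‖r‖ ^ k ≤ ‖r‖ ^ (1 : ℤ) :=
      zpow_le_zpow_right_of_le_one₀ hrpos hr1.le (by omega)
    rw [zpow_one] at h2
    exact h2

end Normed

/-! ### The `p`-adic form -/

/-- **The quadratic step** (literal of the LF row B2 deal).  If `ϖ ∈ K` has the largest norm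
`< 1` in a finite extension `K` of `ℚ_p`, there is a finite extension `K2 ⊇ K` and a square root
`r ∈ K2` of `ϖ` which has the largest norm `< 1` in `K2`. -/
theorem exists_quad {p : ℕ} [Fact p.Prime] (K : IntermediateField ℚ_[p] (PadicAlgCl p))
    [FiniteDimensional ℚ_[p] K] {ϖ : PadicAlgCl p} (hϖK : ϖ ∈ K) (hϖ0 : ϖ ≠ 0) (hϖ1 : ‖ϖ‖ < 1)
    (hmax : ∀ x ∈ K, ‖x‖ < 1 → ‖x‖ ≤ ‖ϖ‖) :
    ∃ (K2 : IntermediateField ℚ_[p] (PadicAlgCl p)) (r : PadicAlgCl p),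
      FiniteDimensional ℚ_[p] K2 ∧ K ≤ K2 ∧ r ∈ K2 ∧ r ^ 2 = ϖ ∧
        (∀ x ∈ K2, ‖x‖ < 1 → ‖x‖ ≤ ‖r‖) := by
  obtain ⟨K2, r, h1, h2, h3, h4, h5, -⟩ := exists_quad_gen K hϖK hϖ0 hϖ1 hmax
  exact ⟨K2, r, h1, h2, h3, h4, h5⟩

/-- The quadratic step with the extra information used by the reduction: `r ∉ K`, every element
of `K2` is `a + b r` with `a, b ∈ K`, and the non-zero norms of `K2` are the integral powers of
`‖r‖`. -/
theorem exists_quad' {p : ℕ} [Fact p.Prime] (K : IntermediateField ℚ_[p] (PadicAlgCl p))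
    [FiniteDimensional ℚ_[p] K] {ϖ : PadicAlgCl p} (hϖK : ϖ ∈ K) (hϖ0 : ϖ ≠ 0) (hϖ1 : ‖ϖ‖ < 1)
    (hmax : ∀ x ∈ K, ‖x‖ < 1 → ‖x‖ ≤ ‖ϖ‖) :
    ∃ (K2 : IntermediateField ℚ_[p] (PadicAlgCl p)) (r : PadicAlgCl p),
      FiniteDimensional ℚ_[p] K2 ∧ K ≤ K2 ∧ r ∈ K2 ∧ r ^ 2 = ϖ ∧
        (∀ x ∈ K2, ‖x‖ < 1 → ‖x‖ ≤ ‖r‖) ∧ r ∉ K ∧
        (∀ x ∈ K2, ∃ a ∈ K, ∃ b ∈ K, x = a + b * r) ∧
        (∀ x ∈ K2, x ≠ 0 → ∃ k : ℤ, ‖x‖ = ‖r‖ ^ k) :=
  exists_quad_gen K hϖK hϖ0 hϖ1 hmax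

end Fermat.Agent.S56.Flat.LF5.Quad
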