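import Mathlib
import Fermat.Agent.S56.LF.LevelBound.ReduceAsm
import Fermat.Agent.S56.Flat.LF5.Quad
import Fermat.Agent.S56.Flat.LF5.PeelNorm

/-!
# S56 / LF row B2 (LF5): `MainStatement p → LevelBoundStatement p`

The three bricks of `LevelBound.ReduceAsm.reduce_of` are theorems:

* `zetaStatement` : `ZetaNorm.norm_sub_one_pow_eq` at `PadicAlgCl p`;
* `quadStatement` : `Quad.exists_quad`;
* `peelStatement` : `PeelNorm.exists_peel_norm`.

Hence `levelBound_of_main : MainStatement p → LevelBoundStatement p`.
-/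

set_option autoImplicit false

namespace Fermat.Agent.S56.Flat.LF5.ReduceExit

open Fermat.Agent.S56.LF.LevelBound

variable {p : ℕ} [Fact p.Prime]

/-- `‖ζ_p - 1‖ ^ (p - 1) = ‖p‖` in `PadicAlgCl p`. -/
theorem zetaStatement : ReduceAsm.ZetaStatement p :=
  fun hζ => ZetaNorm.norm_sub_one_pow_eq Fact.out hζ

/-- The quadratic step. -/
theorem quadStatement : ReduceAsm.QuadStatement p :=
  fun K _ _ h1 h2 h3 h4 => Quad.exists_quad K h1 h2 h3 h4

/-- Peeling, in norm form. -/
theorem peelStatement : ReduceAsm.PeelStatement p :=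
  fun K _ _ hϖK hϖ1 hmax _ he hpe _ huK hu => PeelNorm.exists_peel_norm K hϖK hϖ1 hmax he hpe huK hu

/-- **Reduce**: the main statement (SEAM 2) implies the level bound (exit of LF5). -/
theorem levelBound_of_main (hM : MainStatement p) : LevelBoundStatement p :=
  ReduceAsm.reduce_of zetaStatement quadStatement peelStatement hM

end Fermat.Agent.S56.Flat.LF5.ReduceExit
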