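/-
S56 brick LF, row B2 (LF5), SEAM 1 (Count -> Main): the Kummer counting bound, embedding form.
(helper63; the proof is the generic `Fermat.Agent.Lib.KummerCountBound.card_le_pow_finrank`.)

`E / F` finite separable, `Ω` algebraically closed over `E`.  A family `s c` of non-zero elements
of `E` whose `p`-th powers lie in `F` and whose pairwise quotients do not lie in `F` has at most
`p ^ [E : F]` members.
-/
import Fermat.Agent.Lib.KummerCountBound

namespace Fermat.Agent.S56.Flat.LF5.KummerCount

/-- **SEAM 1 of B2.**  Call with `(Ω := Ω)`: `Ω` occurs only in instance binders. -/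
theorem card_le_pow_finrank {F E Ω : Type*} [Field F] [Field E] [Field Ω] [Algebra F E]
    [Algebra F Ω] [Algebra E Ω] [IsScalarTower F E Ω] [FiniteDimensional F E]
    [Algebra.IsSeparable F E] [IsAlgClosed Ω] {p : ℕ} (hp : 0 < p) {ι : Type*} [Finite ι]
    (s : ι → E) (hs0 : ∀ c, s c ≠ 0) (hsp : ∀ c, s c ^ p ∈ (algebraMap F E).range)
    (hne : ∀ c c', c ≠ c' → s c / s c' ∉ (algebraMap F E).range) :
    Nat.card ι ≤ p ^ Module.finrank F E :=
  Fermat.Agent.Lib.KummerCountBound.card_le_pow_finrank (Ω := Ω) hp s hs0 hsp hne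

end Fermat.Agent.S56.Flat.LF5.KummerCount
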