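import Mathlib
import Fermat.Agent.S56.LF.LevelBound.Family
import Fermat.Agent.S56.LF.LevelBound.CaseTwo
import Fermat.Agent.S56.LF.LevelBound.CaseThree
import Fermat.Agent.S56.LF.LevelBound.Tower
import Fermat.Agent.S56.Flat.LF5.ReduceExit

/-!
# S56 / LF row B2 (LF5): the level bound, unconditionally

Assembly of the landed bricks of the row:

* `mainTowerStatement : MainTowerStatement p` from `family`, `case_two`, `case_three`;
* `mainStatement : MainStatement p` by `main_of_tower`;
* `levelBoundStatement : LevelBoundStatement p` by `ReduceExit.levelBound_of_main`.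
-/

set_option autoImplicit false

namespace Fermat.Agent.S56.Flat.LF5.LevelExit

open Fermat.Agent.S56.LF.LevelBound

variable {p : ℕ} [Fact p.Prime]

/-- The main lemma on an abstract tower. -/
theorem mainTowerStatement : MainTowerStatement p := by
  intro L0 K1 L _ _ _ h01 h1L hp0 hc1 hc2 hPL hcount ϖ hϖ e0 he u θ hu hθ hθu
  exact ⟨fun i hi1 hi2 hpi =>
      case_two family h01 h1L hp0 hc1 hc2 hPL hcount hϖ he hu hθ hθu i hi1 hi2 hpi,
    fun h3 => case_three family h01 h1L hp0 hc1 hc2 hPL hcount hϖ he hu hθ hθu h3⟩

/-- SEAM 2: the main statement at a field `K2` with uniformiser `ϖ` in norm form. -/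
theorem mainStatement : MainStatement p :=
  main_of_tower mainTowerStatement

/-- **LF5, the level bound**: for `p ≠ 2`, `ζ_p ∈ K` and `L'` with property (P), an element
`u ∈ Kˣ` with a `p`-th root in `L' ⊔ K` is congruent to `1` modulo `p` up to `p`-th powers. -/
theorem levelBoundStatement : LevelBoundStatement p :=
  ReduceExit.levelBound_of_main mainStatement

end Fermat.Agent.S56.Flat.LF5.LevelExit
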