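import Mathlib
import Fermat.Agent.S56.LF.LevelExit
import Fermat.Agent.S56.Flat.LF5.LevelExit

/-!
# S56 / brick LF: `FlatKummer.LevelStatement` (flat ⟹ Kummer-bounded), unconditionally

The serial chain A1 → A2 → A3 → B2 of brick LF, closed:
`FlatKummer.LevelStatement` is `LF.LevelExit.levelStatement_of_main` applied to the main
statement of LF5 (`Flat.LF5.LevelExit.mainStatement`).
-/

set_option autoImplicit false

namespace Fermat.Agent.S56.Flat.LF5.LevelStatementExit

/-- **Flat ⟹ Kummer-bounded**: the only open input of `LF/FlatKummer.lean`. -/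
theorem levelStatement : Fermat.Agent.S56.LF.FlatKummer.LevelStatement :=
  Fermat.Agent.S56.LF.LevelExit.levelStatement_of_main (fun _ _ => LevelExit.mainStatement)

end Fermat.Agent.S56.Flat.LF5.LevelStatementExit
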